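/-
[10i-LEVEL-SCALARS] (helper13): change of coefficient ring for the level cohomology of
`Profin15.LevelStr` (helper15).

`Profin15`'s functoriality (`H1map`, `H2map`, `δ₀`, `δ₁`) is for `k`-linear maps between
representations over ONE ring `k`.  The arithmetic plugs live over `ZMod p`, the Kummer / idele
sequences over `ℤ`.  Here: an *additive* equivariant map `φ : A →+ B` between `A : Rep k G` and
`B : Rep k' G` (different rings) induces additive maps on `H⁰`, `H¹`, `H²` of every level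
structure, functorially; equivariant additive equivalences induce equivalences; everything is
compatible with restriction along level-continuous homomorphisms and (for `G = G_ℚ`) with the
local conditions defining `Ш`.
-/
import Fermat.Agent.S55.Profin15.LESNat

set_option autoImplicit false

universe u

open CategoryTheory groupCohomology
open Fermat.Agent.S55.Profin15 Fermat.Agent.S55.Profin15.LevelStr

namespace Fermat.Agent.S55.LevelScalars13

variable {k k' k'' G : Type u} [CommRing k] [CommRing k'] [CommRing k''] [Group G]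
variable (𝒰 : LevelStr G)
variable {A : Rep.{u} k G} {B : Rep.{u} k' G} {C : Rep.{u} k'' G}

/-- an additive map between representations over possibly different rings is equivariant -/
def IsAddEquivariant (φ : A →+ B) : Prop := ∀ (g : G) (a : A), φ (A.ρ g a) = B.ρ g (φ a)

lemma isAddEquivariant_id : IsAddEquivariant (AddMonoidHom.id A) := fun _ _ => rfl

lemma IsAddEquivariant.comp {φ : A →+ B} {ψ : B →+ C} (hφ : IsAddEquivariant φ)
    (hψ : IsAddEquivariant ψ) : IsAddEquivariant (ψ.comp φ) := fun g a => by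
  simp only [AddMonoidHom.comp_apply, hφ g a, hψ g]

lemma isAddEquivariant_of_isEquivariant {A' : Rep.{u} k G} {φ : A →ₗ[k] A'}
    (hφ : IsEquivariant φ) : IsAddEquivariant (A := A) (B := A') φ.toAddMonoidHom := hφ

lemma IsAddEquivariant.symm {e : A ≃+ B} (he : IsAddEquivariant e.toAddMonoidHom) :
    IsAddEquivariant e.symm.toAddMonoidHom := fun g b => by
  apply e.injective
  have h := he g (e.symm b)
  simp only [AddEquiv.coe_toAddMonoidHom, AddEquiv.apply_symm_apply] at h ⊢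
  exact h.symm

section cochains

variable (φ : A →+ B)

/-- composition of `1`-cochains with an additive map -/
def acomp₁ : (G → A) →+ (G → B) := φ.compLeft G

/-- composition of `2`-cochains with an additive map -/
def acomp₂ : (G × G → A) →+ (G × G → B) := φ.compLeft (G × G)

@[simp] lemma acomp₁_apply (x : G → A) (g : G) : acomp₁ φ x g = φ (x g) := rfl
@[simp] lemma acomp₂_apply (x : G × G → A) (g : G × G) : acomp₂ φ x g = φ (x g) := rfl

variable {φ} (hφ : IsAddEquivariant φ)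
include hφ

lemma acomp₁_d₀₁ (a : A) : acomp₁ φ ((d₀₁ A).hom a) = (d₀₁ B).hom (φ a) := by
  have hφ' : ∀ (g : G) (a : A), φ (A.ρ g a) = B.ρ g (φ a) := hφ
  funext g
  simp only [acomp₁_apply, d₀₁_hom_apply, map_sub, hφ']

lemma acomp₂_d₁₂ (x : G → A) : acomp₂ φ ((d₁₂ A).hom x) = (d₁₂ B).hom (acomp₁ φ x) := by
  have hφ' : ∀ (g : G) (a : A), φ (A.ρ g a) = B.ρ g (φ a) := hφ
  funext g
  simp only [acomp₂_apply, acomp₁_apply, d₁₂_hom_apply, map_add, map_sub, hφ']

lemma acomp₁_mem_cocycles₁ {x : G → A} (hx : x ∈ cocycles₁ A) : acomp₁ φ x ∈ cocycles₁ B := by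
  have hφ' : ∀ (g : G) (a : A), φ (A.ρ g a) = B.ρ g (φ a) := hφ
  rw [mem_cocycles₁_iff] at hx ⊢
  intro g h
  simp only [acomp₁_apply, hx g h, map_add, hφ']

lemma acomp₂_mem_cocycles₂ {x : G × G → A} (hx : x ∈ cocycles₂ A) :
    acomp₂ φ x ∈ cocycles₂ B := by
  have hφ' : ∀ (g : G) (a : A), φ (A.ρ g a) = B.ρ g (φ a) := hφ
  rw [mem_cocycles₂_iff] at hx ⊢
  intro g h j
  have := congrArg φ (hx g h j)
  simp only [map_add, hφ'] at this
  simpa only [acomp₂_apply] using this

omit hφ in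
lemma acomp₁_mem_C₁ {x : G → A} (hx : x ∈ 𝒰.C₁ A) : acomp₁ φ x ∈ 𝒰.C₁ B :=
  IsConst₁.comp hx φ

omit hφ in
lemma acomp₂_mem_C₂ {x : G × G → A} (hx : x ∈ 𝒰.C₂ A) : acomp₂ φ x ∈ 𝒰.C₂ B :=
  IsConst₂.comp hx φ

lemma acomp₁_mem_Z₁ {x : G → A} (hx : x ∈ 𝒰.Z₁ A) : acomp₁ φ x ∈ 𝒰.Z₁ B :=
  ⟨acomp₁_mem_cocycles₁ hφ hx.1, acomp₁_mem_C₁ 𝒰 hx.2⟩

lemma acomp₂_mem_Z₂ {x : G × G → A} (hx : x ∈ 𝒰.Z₂ A) : acomp₂ φ x ∈ 𝒰.Z₂ B :=
  ⟨acomp₂_mem_cocycles₂ hφ hx.1, acomp₂_mem_C₂ 𝒰 hx.2⟩

lemma acomp₁_mem_coboundaries₁ {x : G → A} (hx : x ∈ coboundaries₁ A) :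
    acomp₁ φ x ∈ coboundaries₁ B := by
  obtain ⟨a, rfl⟩ := hx
  exact ⟨φ a, (acomp₁_d₀₁ hφ a).symm⟩

lemma acomp₂_mem_B₂ {x : G × G → A} (hx : x ∈ 𝒰.B₂ A) : acomp₂ φ x ∈ 𝒰.B₂ B := by
  obtain ⟨y, hy, rfl⟩ := (𝒰.mem_B₂_iff A x).1 hx
  exact (𝒰.mem_B₂_iff B _).2 ⟨acomp₁ φ y, IsConst₁.comp hy φ, (acomp₂_d₁₂ hφ y).symm⟩

end cochains

section maps

variable (φ : A →+ B) (hφ : IsAddEquivariant φ)

/-- additive map on level `1`-cocycles -/
def addZ₁map : ↥(𝒰.Z₁ A) →+ ↥(𝒰.Z₁ B) where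
  toFun x := ⟨acomp₁ φ x.1, acomp₁_mem_Z₁ 𝒰 hφ x.2⟩
  map_zero' := Subtype.ext (map_zero (acomp₁ φ))
  map_add' x y := Subtype.ext (map_add (acomp₁ φ) x.1 y.1)

/-- additive map on level `2`-cocycles -/
def addZ₂map : ↥(𝒰.Z₂ A) →+ ↥(𝒰.Z₂ B) where
  toFun x := ⟨acomp₂ φ x.1, acomp₂_mem_Z₂ 𝒰 hφ x.2⟩
  map_zero' := Subtype.ext (map_zero (acomp₂ φ))
  map_add' x y := Subtype.ext (map_add (acomp₂ φ) x.1 y.1)

@[simp] lemma coe_addZ₁map (x : ↥(𝒰.Z₁ A)) :
    (addZ₁map 𝒰 φ hφ x : G → B) = acomp₁ φ x.1 := rfl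

@[simp] lemma coe_addZ₂map (x : ↥(𝒰.Z₂ A)) :
    (addZ₂map 𝒰 φ hφ x : G × G → B) = acomp₂ φ x.1 := rfl

/-- additive map on `H⁰` -/
def addH0map : ↥(LevelStr.H0 A) →+ ↥(LevelStr.H0 B) where
  toFun x := ⟨φ x.1, fun g => by rw [← hφ g x.1, x.2 g]⟩
  map_zero' := Subtype.ext (map_zero φ)
  map_add' x y := Subtype.ext (map_add φ x.1 y.1)

@[simp] lemma coe_addH0map (x : ↥(LevelStr.H0 A)) : (addH0map φ hφ x : B) = φ x.1 := rfl

/-- **additive map on level `H¹`** induced by an additive equivariant map of coefficients -/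
def addH1map : 𝒰.H1 A →+ 𝒰.H1 B where
  toFun := Quotient.lift (fun x : ↥(𝒰.Z₁ A) => 𝒰.H1π B (addZ₁map 𝒰 φ hφ x)) (by
    intro x y hxy
    have h : x - y ∈ (coboundaries₁ A).comap (𝒰.Z₁ A).subtype :=
      (Submodule.quotientRel_def _).1 hxy
    refine (Submodule.Quotient.eq _).2 ?_
    rw [Submodule.mem_comap] at h ⊢
    have := acomp₁_mem_coboundaries₁ hφ h
    rw [← map_sub]
    exact this)
  map_zero' := by
    show 𝒰.H1π B (addZ₁map 𝒰 φ hφ 0) = 0
    rw [map_zero, map_zero]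
  map_add' x y := by
    obtain ⟨x, rfl⟩ := Submodule.Quotient.mk_surjective _ x
    obtain ⟨y, rfl⟩ := Submodule.Quotient.mk_surjective _ y
    show 𝒰.H1π B (addZ₁map 𝒰 φ hφ (x + y)) = _
    rw [map_add, map_add]
    rfl

/-- **additive map on level `H²`** induced by an additive equivariant map of coefficients -/
def addH2map : 𝒰.H2 A →+ 𝒰.H2 B where
  toFun := Quotient.lift (fun x : ↥(𝒰.Z₂ A) => 𝒰.H2π B (addZ₂map 𝒰 φ hφ x)) (by
    intro x y hxy
    have h : x - y ∈ (𝒰.B₂ A).comap (𝒰.Z₂ A).subtype :=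
      (Submodule.quotientRel_def _).1 hxy
    refine (Submodule.Quotient.eq _).2 ?_
    rw [Submodule.mem_comap] at h ⊢
    have := acomp₂_mem_B₂ 𝒰 hφ h
    rw [← map_sub]
    exact this)
  map_zero' := by
    show 𝒰.H2π B (addZ₂map 𝒰 φ hφ 0) = 0
    rw [map_zero, map_zero]
  map_add' x y := by
    obtain ⟨x, rfl⟩ := Submodule.Quotient.mk_surjective _ x
    obtain ⟨y, rfl⟩ := Submodule.Quotient.mk_surjective _ y
    show 𝒰.H2π B (addZ₂map 𝒰 φ hφ (x + y)) = _
    rw [map_add, map_add]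
    rfl

@[simp] lemma addH1map_H1π (x : ↥(𝒰.Z₁ A)) :
    addH1map 𝒰 φ hφ (𝒰.H1π A x) = 𝒰.H1π B (addZ₁map 𝒰 φ hφ x) := rfl

@[simp] lemma addH2map_H2π (x : ↥(𝒰.Z₂ A)) :
    addH2map 𝒰 φ hφ (𝒰.H2π A x) = 𝒰.H2π B (addZ₂map 𝒰 φ hφ x) := rfl

end maps

/-! ### functoriality -/

section functoriality

lemma addH0map_id (x : ↥(LevelStr.H0 A)) :
    addH0map (AddMonoidHom.id A) isAddEquivariant_id x = x := rfl

lemma addH1map_id (x : 𝒰.H1 A) : addH1map 𝒰 (AddMonoidHom.id A) isAddEquivariant_id x = x := by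
  obtain ⟨c, rfl⟩ := Submodule.Quotient.mk_surjective _ x
  rfl

lemma addH2map_id (x : 𝒰.H2 A) : addH2map 𝒰 (AddMonoidHom.id A) isAddEquivariant_id x = x := by
  obtain ⟨c, rfl⟩ := Submodule.Quotient.mk_surjective _ x
  rfl

variable {φ : A →+ B} {ψ : B →+ C} (hφ : IsAddEquivariant φ) (hψ : IsAddEquivariant ψ)

lemma addH0map_comp (x : ↥(LevelStr.H0 A)) :
    addH0map (ψ.comp φ) (hφ.comp hψ) x = addH0map ψ hψ (addH0map φ hφ x) := rfl

lemma addH1map_comp (x : 𝒰.H1 A) :
    addH1map 𝒰 (ψ.comp φ) (hφ.comp hψ) x = addH1map 𝒰 ψ hψ (addH1map 𝒰 φ hφ x) := by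
  obtain ⟨c, rfl⟩ := Submodule.Quotient.mk_surjective _ x
  rfl

lemma addH2map_comp (x : 𝒰.H2 A) :
    addH2map 𝒰 (ψ.comp φ) (hφ.comp hψ) x = addH2map 𝒰 ψ hψ (addH2map 𝒰 φ hφ x) := by
  obtain ⟨c, rfl⟩ := Submodule.Quotient.mk_surjective _ x
  rfl

/-- the maps only depend on the underlying function -/
lemma addH1map_congr {φ' : A →+ B} (hφ' : IsAddEquivariant φ') (h : ∀ a, φ a = φ' a)
    (x : 𝒰.H1 A) : addH1map 𝒰 φ hφ x = addH1map 𝒰 φ' hφ' x := by
  obtain rfl : φ = φ' := AddMonoidHom.ext h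
  rfl

lemma addH2map_congr {φ' : A →+ B} (hφ' : IsAddEquivariant φ') (h : ∀ a, φ a = φ' a)
    (x : 𝒰.H2 A) : addH2map 𝒰 φ hφ x = addH2map 𝒰 φ' hφ' x := by
  obtain rfl : φ = φ' := AddMonoidHom.ext h
  rfl

end functoriality

/-! ### comparison with the `k`-linear functoriality of `Profin15` -/

section linear

variable {A' : Rep.{u} k G} (f : A →ₗ[k] A') (hf : IsEquivariant f)

lemma addH0map_eq_H0map (x : ↥(LevelStr.H0 A)) :
    addH0map (A := A) (B := A') f.toAddMonoidHom (isAddEquivariant_of_isEquivariant hf) x =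
      H0map f hf x := rfl

lemma addH1map_eq_H1map (x : 𝒰.H1 A) :
    addH1map 𝒰 (A := A) (B := A') f.toAddMonoidHom (isAddEquivariant_of_isEquivariant hf) x =
      𝒰.H1map f hf x := by
  obtain ⟨c, rfl⟩ := Submodule.Quotient.mk_surjective _ x
  rfl

lemma addH2map_eq_H2map (x : 𝒰.H2 A) :
    addH2map 𝒰 (A := A) (B := A') f.toAddMonoidHom (isAddEquivariant_of_isEquivariant hf) x =
      𝒰.H2map f hf x := by
  obtain ⟨c, rfl⟩ := Submodule.Quotient.mk_surjective _ x
  rfl

end linear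

/-! ### equivalences -/

section equiv

variable (e : A ≃+ B) (he : IsAddEquivariant e.toAddMonoidHom)

/-- an equivariant additive equivalence of coefficients induces an equivalence on `H⁰` -/
noncomputable def addH0equiv : ↥(LevelStr.H0 A) ≃+ ↥(LevelStr.H0 B) where
  toFun := addH0map e.toAddMonoidHom he
  invFun := addH0map e.symm.toAddMonoidHom he.symm
  left_inv x := Subtype.ext (e.symm_apply_apply x.1)
  right_inv x := Subtype.ext (e.apply_symm_apply x.1)
  map_add' := map_add _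

/-- an equivariant additive equivalence of coefficients induces an equivalence on level `H¹` -/
def addH1equiv : 𝒰.H1 A ≃+ 𝒰.H1 B where
  toFun := addH1map 𝒰 e.toAddMonoidHom he
  invFun := addH1map 𝒰 e.symm.toAddMonoidHom he.symm
  left_inv x := by
    rw [← addH1map_comp 𝒰 he he.symm x]
    rw [addH1map_congr 𝒰 (he.comp he.symm) isAddEquivariant_id
      (fun a => e.symm_apply_apply a) x, addH1map_id]
  right_inv x := by
    rw [← addH1map_comp 𝒰 he.symm he x]
    rw [addH1map_congr 𝒰 (he.symm.comp he) isAddEquivariant_id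
      (fun a => e.apply_symm_apply a) x, addH1map_id]
  map_add' := map_add _

/-- an equivariant additive equivalence of coefficients induces an equivalence on level `H²` -/
def addH2equiv : 𝒰.H2 A ≃+ 𝒰.H2 B where
  toFun := addH2map 𝒰 e.toAddMonoidHom he
  invFun := addH2map 𝒰 e.symm.toAddMonoidHom he.symm
  left_inv x := by
    rw [← addH2map_comp 𝒰 he he.symm x]
    rw [addH2map_congr 𝒰 (he.comp he.symm) isAddEquivariant_id
      (fun a => e.symm_apply_apply a) x, addH2map_id]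
  right_inv x := by
    rw [← addH2map_comp 𝒰 he.symm he x]
    rw [addH2map_congr 𝒰 (he.symm.comp he) isAddEquivariant_id
      (fun a => e.apply_symm_apply a) x, addH2map_id]
  map_add' := map_add _

@[simp] lemma addH0equiv_apply (x : ↥(LevelStr.H0 A)) :
    addH0equiv e he x = addH0map e.toAddMonoidHom he x := rfl

@[simp] lemma addH1equiv_apply (x : 𝒰.H1 A) :
    addH1equiv 𝒰 e he x = addH1map 𝒰 e.toAddMonoidHom he x := rfl

@[simp] lemma addH2equiv_apply (x : 𝒰.H2 A) :
    addH2equiv 𝒰 e he x = addH2map 𝒰 e.toAddMonoidHom he x := rfl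

@[simp] lemma addH1equiv_symm_apply (x : 𝒰.H1 B) :
    (addH1equiv 𝒰 e he).symm x = addH1map 𝒰 e.symm.toAddMonoidHom he.symm x := rfl

@[simp] lemma addH2equiv_symm_apply (x : 𝒰.H2 B) :
    (addH2equiv 𝒰 e he).symm x = addH2map 𝒰 e.symm.toAddMonoidHom he.symm x := rfl

include he in
lemma card_H0_eq : Nat.card ↥(LevelStr.H0 A) = Nat.card ↥(LevelStr.H0 B) :=
  Nat.card_congr (addH0equiv e he).toEquiv

include he in
lemma card_H1_eq : Nat.card (𝒰.H1 A) = Nat.card (𝒰.H1 B) :=
  Nat.card_congr (addH1equiv 𝒰 e he).toEquiv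

include he in
lemma card_H2_eq : Nat.card (𝒰.H2 A) = Nat.card (𝒰.H2 B) :=
  Nat.card_congr (addH2equiv 𝒰 e he).toEquiv

include he in
/-- smoothness only depends on the underlying additive `G`-module -/
lemma isSmooth_iff : 𝒰.IsSmooth A ↔ 𝒰.IsSmooth B := by
  have he' : ∀ (g : G) (a : A), e (A.ρ g a) = B.ρ g (e a) := he
  constructor
  · intro h b
    obtain ⟨U, hU, hfix⟩ := h (e.symm b)
    refine ⟨U, hU, fun s hs => ?_⟩
    have := he' s (e.symm b)
    rw [hfix s hs, e.apply_symm_apply] at this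
    exact this.symm
  · intro h a
    obtain ⟨U, hU, hfix⟩ := h (e a)
    refine ⟨U, hU, fun s hs => ?_⟩
    apply e.injective
    rw [he' s a, hfix s hs]

end equiv

/-! ### injectivity / surjectivity statements for injective coefficient maps -/

section inj

variable {φ : A →+ B} (hφ : IsAddEquivariant φ)

lemma addH0map_injective (hinj : Function.Injective φ) :
    Function.Injective (addH0map φ hφ) := fun _ _ h =>
  Subtype.ext (hinj (congrArg Subtype.val h))

end inj

/-! ### restriction -/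

section restriction

variable {H : Type u} [Group H] (f : H →* G)

/-- an additive map of `G`-modules, seen as an additive map between the restricted modules -/
def resAdd (φ : A →+ B) : (Rep.res f A) →+ (Rep.res f B) := φ

@[simp] lemma resAdd_apply (φ : A →+ B) (a : A) : resAdd f φ a = φ a := rfl

lemma IsAddEquivariant.res {φ : A →+ B} (hφ : IsAddEquivariant φ) :
    IsAddEquivariant (resAdd f φ) := fun s a => hφ (f s) a

/-- an additive equivalence of `G`-modules, seen between the restricted modules -/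
def resAddEquiv (e : A ≃+ B) : (Rep.res f A) ≃+ (Rep.res f B) := e

lemma resAddEquiv_toAddMonoidHom (e : A ≃+ B) :
    (resAddEquiv f e).toAddMonoidHom = resAdd f e.toAddMonoidHom := rfl

variable {𝒰} {𝒱 : LevelStr H} {f} (hf : LevelStr.IsContinuous 𝒱 𝒰 f)
variable {φ : A →+ B} (hφ : IsAddEquivariant φ)

/-- restriction on `H⁰` commutes with the coefficient maps -/
lemma res₀_addH0map (x : ↥(LevelStr.H0 A)) :
    LevelStr.res₀ f B (addH0map φ hφ x) = addH0map (resAdd f φ) (hφ.res f) (LevelStr.res₀ f A x) :=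
  rfl

/-- **restriction on level `H¹` commutes with the coefficient maps** -/
lemma res₁_addH1map (x : 𝒰.H1 A) :
    hf.res₁ B (addH1map 𝒰 φ hφ x) = addH1map 𝒱 (resAdd f φ) (hφ.res f) (hf.res₁ A x) := by
  obtain ⟨c, rfl⟩ := Submodule.Quotient.mk_surjective _ x
  rfl

/-- **restriction on level `H²` commutes with the coefficient maps** -/
lemma res₂_addH2map (x : 𝒰.H2 A) :
    hf.res₂ B (addH2map 𝒰 φ hφ x) = addH2map 𝒱 (resAdd f φ) (hφ.res f) (hf.res₂ A x) := by
  obtain ⟨c, rfl⟩ := Submodule.Quotient.mk_surjective _ x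
  rfl

variable (e : A ≃+ B) (he : IsAddEquivariant e.toAddMonoidHom)

include he in
lemma res₁_eq_zero_iff (x : 𝒰.H1 A) :
    hf.res₁ B (addH1map 𝒰 e.toAddMonoidHom he x) = 0 ↔ hf.res₁ A x = 0 := by
  rw [res₁_addH1map hf he x]
  have he' : IsAddEquivariant (resAddEquiv f e).toAddMonoidHom := he.res f
  constructor
  · intro h
    exact (addH1equiv 𝒱 (resAddEquiv f e) he').injective (h.trans (map_zero _).symm)
  · intro h
    rw [h, map_zero]

include he in
lemma res₂_eq_zero_iff (x : 𝒰.H2 A) :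
    hf.res₂ B (addH2map 𝒰 e.toAddMonoidHom he x) = 0 ↔ hf.res₂ A x = 0 := by
  rw [res₂_addH2map hf he x]
  have he' : IsAddEquivariant (resAddEquiv f e).toAddMonoidHom := he.res f
  constructor
  · intro h
    exact (addH2equiv 𝒱 (resAddEquiv f e) he').injective (h.trans (map_zero _).symm)
  · intro h
    rw [h, map_zero]

end restriction

/-! ### the canonical `ℤ`-form of a representation -/

section intRep

variable {kk GG : Type} [CommRing kk] [Group GG]

/-- the underlying `ℤ`-linear representation of a `k`-linear representation -/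
def intRepρ (M : Rep.{0} kk GG) : Representation ℤ GG M.V where
  toFun g := (M.ρ g).toAddMonoidHom.toIntLinearMap
  map_one' := by
    apply LinearMap.ext
    intro m
    simp
  map_mul' g h := by
    apply LinearMap.ext
    intro m
    simp

/-- **the canonical `ℤ`-form** of `M : Rep k G`: same carrier, same action, scalars `ℤ` -/
noncomputable def intRep (M : Rep.{0} kk GG) : Rep.{0} ℤ GG := Rep.of (intRepρ M)

/-- the identity, as an additive equivalence `M ≃+ intRep M` -/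
noncomputable def toInt (M : Rep.{0} kk GG) : M ≃+ intRep M := AddEquiv.refl M.V

@[simp] lemma intRep_ρ_apply (M : Rep.{0} kk GG) (g : GG) (m : M) :
    (intRep M).ρ g (toInt M m) = toInt M (M.ρ g m) := rfl

lemma toInt_equivariant (M : Rep.{0} kk GG) : IsAddEquivariant (toInt M).toAddMonoidHom :=
  fun _ _ => rfl

lemma intRep_isSmooth_iff (𝒲 : LevelStr GG) (M : Rep.{0} kk GG) :
    𝒲.IsSmooth (intRep M) ↔ 𝒲.IsSmooth M :=
  (isSmooth_iff 𝒲 (toInt M) (toInt_equivariant M)).symm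

end intRep

end Fermat.Agent.S55.LevelScalars13
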