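/-
[10i-LEVEL-SCALARS] (helper13): the connecting maps `δ₀`, `δ₁` of `Profin15.LevelStr.ShortExact`
are natural for *additive* equivariant morphisms between short exact sequences over DIFFERENT
coefficient rings (e.g. a sequence of `ZMod p`-modules mapping to a sequence of `ℤ`-modules);
and the degree `0/1` part of the Kummer sequence `0 → Z → E -p→ E → 0`
(`0 → H⁰(E)/p → H¹(Z) → H¹(E)[p] → 0`), twin of `S1_67.Level.kummer_δ₁_eq_zero_iff`,
`kummer_H2_torsion_iff` (degrees `1/2`, helper67).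
-/
import Fermat.Agent.S55.LevelScalars13.Basic

set_option autoImplicit false

universe u

open CategoryTheory groupCohomology
open Fermat.Agent.S55.Profin15 Fermat.Agent.S55.Profin15.LevelStr

namespace Fermat.Agent.S55.LevelScalars13

variable {k k' G : Type u} [CommRing k] [CommRing k'] [Group G] (𝒰 : LevelStr G)

section naturality

variable {A₁ A₂ A₃ : Rep.{u} k G} {B₁ B₂ B₃ : Rep.{u} k' G}
variable {φ : A₁ →ₗ[k] A₂} {ψ : A₂ →ₗ[k] A₃} {φ' : B₁ →ₗ[k'] B₂} {ψ' : B₂ →ₗ[k'] B₃}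
variable (h : ShortExact φ ψ) (h' : ShortExact φ' ψ')
variable (hA : 𝒰.IsSmooth A₂) (hB : 𝒰.IsSmooth B₂)
variable {α : A₁ →+ B₁} {β : A₂ →+ B₂} {γ : A₃ →+ B₃}
variable (hα : IsAddEquivariant α) (hβ : IsAddEquivariant β) (hγ : IsAddEquivariant γ)
variable (hl : ∀ a, β (φ a) = φ' (α a)) (hr : ∀ b, γ (ψ b) = ψ' (β b))
include hβ hl hr

/-- **naturality of `δ⁰` across coefficient rings** -/
theorem addH1map_δ₀ (c : ↥(LevelStr.H0 A₃)) :
    addH1map 𝒰 α hα (h.δ₀ 𝒰 hA c) = h'.δ₀ 𝒰 hB (addH0map γ hγ c) := by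
  obtain ⟨b, a, hb, ha, hδ⟩ := h.exists_δ₀_data 𝒰 hA c
  rw [hδ, addH1map_H1π]
  symm
  refine h'.δ₀_eq 𝒰 hB _ (β b) ?_ _ ?_
  · rw [coe_addH0map, ← hb]
    exact (hr b).symm
  · rw [coe_addZ₁map, ← acomp₁_d₀₁ hβ b, ← ha]
    funext g
    exact (hl (a.1 g)).symm

/-- **naturality of `δ¹` across coefficient rings** -/
theorem addH2map_δ₁ (x : 𝒰.H1 A₃) :
    addH2map 𝒰 α hα (h.δ₁ 𝒰 hA x) = h'.δ₁ 𝒰 hB (addH1map 𝒰 γ hγ x) := by
  obtain ⟨c, rfl⟩ := Submodule.Quotient.mk_surjective _ x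
  obtain ⟨y, hy, a, hyc, ha, hδ⟩ := h.exists_δ₁_data 𝒰 hA c
  have hδ' : h.δ₁ 𝒰 hA (Submodule.Quotient.mk c) = 𝒰.H2π A₁ a := hδ
  rw [hδ', addH2map_H2π]
  symm
  refine h'.δ₁_eq 𝒰 hB (addZ₁map 𝒰 γ hγ c) (acomp₁ β y) (acomp₁_mem_C₁ 𝒰 hy) ?_ _ ?_
  · rw [coe_addZ₁map, ← hyc]
    funext g
    exact (hr (y g)).symm
  · rw [coe_addZ₂map, ← acomp₂_d₁₂ hβ y, ← ha]
    funext g
    exact (hl (a.1 g)).symm

end naturality

/-! ### Kummer sequence, degrees `0` and `1` -/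

section kummer

variable {Z E : Rep.{u} k G} {p : ℕ} {ι : Z →ₗ[k] E} {pw : E →ₗ[k] E}

/-- multiplication by a natural number on `H¹` is induced by multiplication on coefficients -/
lemma H1map_eq_nsmul' (hpw : ∀ e, pw e = p • e) (hpe : IsEquivariant pw)
    (x : 𝒰.H1 E) : 𝒰.H1map pw hpe x = p • x := by
  obtain ⟨z, rfl⟩ := Submodule.Quotient.mk_surjective _ x
  rw [← Submodule.Quotient.mk_smul]
  show 𝒰.H1π E (𝒰.Z₁map pw hpe z) = 𝒰.H1π E (p • z)
  congr 1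
  apply Subtype.ext
  funext g
  show pw ((z : G → E) g) = (p • (z : G → E)) g
  rw [hpw, Pi.smul_apply]

/-- multiplication by a natural number on `H⁰` is induced by multiplication on coefficients -/
lemma H0map_eq_nsmul (hpw : ∀ e, pw e = p • e) (hpe : IsEquivariant pw)
    (x : ↥(LevelStr.H0 E)) : H0map pw hpe x = p • x := by
  apply Subtype.ext
  rw [coe_H0map, hpw]
  rfl

variable (hK : ShortExact ι pw) (hpw : ∀ e, pw e = p • e) (hE : 𝒰.IsSmooth E)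
include hpw

/-- exactness of the Kummer sequence at `H⁰(E)`: `ker δ₀ = p • H⁰(E)`
(so `range δ₀ ≃ H⁰(E)/p`). -/
theorem kummer_δ₀_eq_zero_iff (c : ↥(LevelStr.H0 E)) :
    hK.δ₀ 𝒰 hE c = 0 ↔ ∃ b : ↥(LevelStr.H0 E), p • b = c := by
  rw [hK.exact_H0map_δ₀ 𝒰 hE c]
  constructor
  · rintro ⟨b, rfl⟩
    exact ⟨b, (H0map_eq_nsmul hpw hK.equivariant_right b).symm⟩
  · rintro ⟨b, rfl⟩
    exact ⟨b, H0map_eq_nsmul hpw hK.equivariant_right b⟩

omit hpw in
/-- exactness of the Kummer sequence at `H¹(Z)`: `ker (H¹(Z) → H¹(E)) = range δ₀`. -/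
theorem kummer_H1map_ι_eq_zero_iff (z : 𝒰.H1 Z) :
    𝒰.H1map ι hK.equivariant_left z = 0 ↔ z ∈ Set.range (hK.δ₀ 𝒰 hE) := by
  have := hK.exact_δ₀_H1map 𝒰 hE z
  exact this

include hE in
/-- exactness of the Kummer sequence at `H¹(E)`: the `p`-torsion of `H¹(E)` is the image of
`H¹(Z)`. -/
theorem kummer_H1_torsion_iff (x : 𝒰.H1 E) :
    p • x = 0 ↔ x ∈ Set.range (𝒰.H1map ι hK.equivariant_left) := by
  rw [← H1map_eq_nsmul' 𝒰 hpw hK.equivariant_right x]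
  exact hK.exact_H1map_H1map 𝒰 hE x

include hK in
/-- `H¹(Z)` of the Kummer kernel is killed by `p` -/
theorem kummer_nsmul_H1_eq_zero (z : 𝒰.H1 Z) : p • z = 0 := by
  have hZ : ∀ m : Z, p • m = 0 := fun m => by
    apply hK.injective
    rw [map_nsmul, ← hpw, hK.comp_eq_zero, map_zero]
  obtain ⟨c, rfl⟩ := Submodule.Quotient.mk_surjective _ z
  rw [← Submodule.Quotient.mk_smul]
  have : p • c = 0 := by
    apply Subtype.ext
    funext g
    show (p • (c : G → Z)) g = 0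
    rw [Pi.smul_apply, hZ]
  rw [this, Submodule.Quotient.mk_zero]

omit hpw in
/-- **counting form**: if `H¹(Z)` is finite then
`|H¹(Z)| = |H⁰(E)/p| * |H¹(E)[p]|`, with `H⁰(E)/p` realised as `range δ₀` and `H¹(E)[p]` as
`range (H¹(Z) → H¹(E))`. -/
theorem kummer_card_H1 [Finite (𝒰.H1 Z)] :
    Nat.card (𝒰.H1 Z) =
      Nat.card ↥(LinearMap.range (hK.δ₀ 𝒰 hE)) *
        Nat.card ↥(LinearMap.range (𝒰.H1map ι hK.equivariant_left)) := by
  have hker : LinearMap.ker (𝒰.H1map ι hK.equivariant_left) = LinearMap.range (hK.δ₀ 𝒰 hE) := by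
    ext z
    rw [LinearMap.mem_ker, LinearMap.mem_range]
    exact hK.exact_δ₀_H1map 𝒰 hE z
  have e := (𝒰.H1map ι hK.equivariant_left).quotKerEquivRange
  have h1 := Submodule.card_eq_card_quotient_mul_card
    (LinearMap.ker (𝒰.H1map ι hK.equivariant_left))
  rw [h1, Nat.card_congr e.toEquiv, hker, mul_comm]

end kummer

end Fermat.Agent.S55.LevelScalars13
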