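/-
[10i-LEVEL-SCALARS] (helper13): dictionary between the two (crossed) landed copies of the
ring-change bridge: `S1_67.ScalarChange` (helper67: `H1add`, `H2add`, `H1addEquiv`, `H2addEquiv`)
and `LevelScalars13` (`addH1map`, `addH2map`, `addH1equiv`, `addH2equiv`).  The two notions of
`IsAddEquivariant` are the same `Prop` (by `Iff.rfl`) and the maps agree, so every statement of
either package (`LevelScalars13.{Sha,Les,Mu}`: `Ш`, connecting maps across rings, `μ_p`;
`S1_67.P6Core`: the count of (P6)) can be quoted in the other vocabulary.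
-/
import Fermat.Agent.S55.LevelScalars13.Basic
import Fermat.Agent.S55.S1_67.ScalarChange

set_option autoImplicit false

universe u

open CategoryTheory groupCohomology
open Fermat.Agent.S55.Profin15 Fermat.Agent.S55.Profin15.LevelStr

namespace Fermat.Agent.S55.LevelScalars13.Compat67

open Fermat.Agent.S55.S1_67

variable {k k' G : Type u} [CommRing k] [CommRing k'] [Group G] (𝒰 : LevelStr G)
variable {A : Rep.{u} k G} {B : Rep.{u} k' G}

/-- the two equivariance predicates are the same proposition -/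
theorem isAddEquivariant_iff (φ : A →+ B) :
    ScalarChange.IsAddEquivariant φ ↔ LevelScalars13.IsAddEquivariant φ := Iff.rfl

theorem of67 {φ : A →+ B} (h : ScalarChange.IsAddEquivariant φ) :
    LevelScalars13.IsAddEquivariant φ := h

theorem to67 {φ : A →+ B} (h : LevelScalars13.IsAddEquivariant φ) :
    ScalarChange.IsAddEquivariant φ := h

variable (φ : A →+ B) (hφ : LevelScalars13.IsAddEquivariant φ)

/-- helper67's `H1add` is `addH1map` -/
theorem H1add_eq_addH1map (x : 𝒰.H1 A) :
    ScalarChange.H1add 𝒰 φ (to67 hφ) x = addH1map 𝒰 φ hφ x := by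
  obtain ⟨c, rfl⟩ := Submodule.Quotient.mk_surjective _ x
  rfl

/-- helper67's `H2add` is `addH2map` -/
theorem H2add_eq_addH2map (x : 𝒰.H2 A) :
    ScalarChange.H2add 𝒰 φ (to67 hφ) x = addH2map 𝒰 φ hφ x := by
  obtain ⟨c, rfl⟩ := Submodule.Quotient.mk_surjective _ x
  rfl

theorem H1add_eq_addH1map' : ScalarChange.H1add 𝒰 φ (to67 hφ) = addH1map 𝒰 φ hφ :=
  AddMonoidHom.ext (H1add_eq_addH1map 𝒰 φ hφ)

theorem H2add_eq_addH2map' : ScalarChange.H2add 𝒰 φ (to67 hφ) = addH2map 𝒰 φ hφ :=
  AddMonoidHom.ext (H2add_eq_addH2map 𝒰 φ hφ)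

variable (e : A ≃+ B) (he : LevelScalars13.IsAddEquivariant e.toAddMonoidHom)

/-- helper67's `H1addEquiv` is `addH1equiv` -/
theorem H1addEquiv_eq_addH1equiv :
    ScalarChange.H1addEquiv 𝒰 e (to67 he) = addH1equiv 𝒰 e he :=
  AddEquiv.ext (H1add_eq_addH1map 𝒰 e.toAddMonoidHom he)

/-- helper67's `H2addEquiv` is `addH2equiv` -/
theorem H2addEquiv_eq_addH2equiv :
    ScalarChange.H2addEquiv 𝒰 e (to67 he) = addH2equiv 𝒰 e he :=
  AddEquiv.ext (H2add_eq_addH2map 𝒰 e.toAddMonoidHom he)

end Fermat.Agent.S55.LevelScalars13.Compat67
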