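/-
[10i-LEVEL-SCALARS] (helper13): the level Tate–Shafarevich groups `Profin15.Sha₁`, `Profin15.Sha₂`
only depend on the underlying additive `G_ℚ`-module: an equivariant additive equivalence
`A ≃+ B` between `A : Rep k G_ℚ` and `B : Rep k' G_ℚ` (e.g. `k = ZMod p`, `k' = ℤ`) induces
`Sha₂ S A ≃+ Sha₂ S B` and the same in degree `1`.
-/
import Fermat.Agent.S55.LevelScalars13.Basic
import Fermat.Agent.S55.Profin15.Sha

set_option autoImplicit false

open CategoryTheory groupCohomology ExtCitation
open Fermat.Agent.S55.Profin15 Fermat.Agent.S55.Profin15.LevelStr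
open Fermat.Agent.Lib.FrobeniusExists

namespace Fermat.Agent.S55.LevelScalars13

variable (S : Finset Nat.Primes) {k k' : Type} [CommRing k] [CommRing k']
variable {A : Rep k GQ} {B : Rep k' GQ}

section maps

variable {φ : A →+ B} (hφ : IsAddEquivariant φ)

/-- localisation in degree `2` commutes with change of coefficients -/
theorem locRes₂_addH2map (v : extArithIndex S) (x : (globalLevels S).H2 A) :
    locRes₂ S B v (addH2map (globalLevels S) φ hφ x) =
      addH2map (locLevels S v) (resAdd (extArithLoc S v) φ) (hφ.res _) (locRes₂ S A v x) :=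
  res₂_addH2map (isContinuous_pullLevels S (extArithLoc S v)) hφ x

/-- localisation in degree `1` commutes with change of coefficients -/
theorem locRes₁_addH1map (v : extArithIndex S) (x : (globalLevels S).H1 A) :
    locRes₁ S B v (addH1map (globalLevels S) φ hφ x) =
      addH1map (locLevels S v) (resAdd (extArithLoc S v) φ) (hφ.res _) (locRes₁ S A v x) :=
  res₁_addH1map (isContinuous_pullLevels S (extArithLoc S v)) hφ x

end maps

/-- the degree-`1` level Tate–Shafarevich group for an arbitrary coefficient ring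
(`Profin15.Sha₁` is only declared over fields) -/
noncomputable def Sha1 (M : Rep k GQ) : Submodule k ((globalLevels S).H1 M) :=
  ⨅ v : extArithIndex S, LinearMap.ker (locRes₁ S M v)

lemma mem_Sha1_iff (M : Rep k GQ) (x : (globalLevels S).H1 M) :
    x ∈ Sha1 S M ↔ ∀ v : extArithIndex S, locRes₁ S M v x = 0 := by
  simp only [Sha1, Submodule.mem_iInf, LinearMap.mem_ker]

lemma mem_Sha₂_iff (M : Rep k GQ) (x : (globalLevels S).H2 M) :
    x ∈ Sha₂ S M ↔ ∀ v : extArithIndex S, locRes₂ S M v x = 0 := by
  simp only [Sha₂, Submodule.mem_iInf, LinearMap.mem_ker]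

lemma Sha1_eq_Sha₁ {K : Type} [Field K] (M : Rep K GQ) : Sha1 S M = Sha₁ S M := rfl

section equiv

variable (e : A ≃+ B) (he : IsAddEquivariant e.toAddMonoidHom)
include he

theorem addH2map_mem_Sha₂_iff (x : (globalLevels S).H2 A) :
    addH2map (globalLevels S) e.toAddMonoidHom he x ∈ Sha₂ S B ↔ x ∈ Sha₂ S A := by
  rw [mem_Sha₂_iff, mem_Sha₂_iff]
  exact forall_congr' fun v =>
    res₂_eq_zero_iff (isContinuous_pullLevels S (extArithLoc S v)) e he x

theorem addH1map_mem_Sha1_iff (x : (globalLevels S).H1 A) :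
    addH1map (globalLevels S) e.toAddMonoidHom he x ∈ Sha1 S B ↔ x ∈ Sha1 S A := by
  rw [mem_Sha1_iff, mem_Sha1_iff]
  exact forall_congr' fun v =>
    res₁_eq_zero_iff (isContinuous_pullLevels S (extArithLoc S v)) e he x

/-- **`Sha₂` only depends on the underlying additive `G_ℚ`-module** -/
noncomputable def addSha₂Equiv : ↥(Sha₂ S A) ≃+ ↥(Sha₂ S B) where
  toFun x := ⟨addH2map (globalLevels S) e.toAddMonoidHom he x.1,
    (addH2map_mem_Sha₂_iff S e he x.1).2 x.2⟩
  invFun y := ⟨addH2map (globalLevels S) e.symm.toAddMonoidHom he.symm y.1, by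
    have h := addH2map_mem_Sha₂_iff S e he
      (addH2map (globalLevels S) e.symm.toAddMonoidHom he.symm y.1)
    have h2 := (addH2equiv (globalLevels S) e he).apply_symm_apply y.1
    simp only [addH2equiv_apply, addH2equiv_symm_apply] at h2
    rw [h2] at h
    exact h.1 y.2⟩
  left_inv x := Subtype.ext ((addH2equiv (globalLevels S) e he).symm_apply_apply x.1)
  right_inv y := Subtype.ext ((addH2equiv (globalLevels S) e he).apply_symm_apply y.1)
  map_add' x y := Subtype.ext (map_add _ x.1 y.1)

/-- **`Sha¹` only depends on the underlying additive `G_ℚ`-module** -/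
noncomputable def addSha1Equiv : ↥(Sha1 S A) ≃+ ↥(Sha1 S B) where
  toFun x := ⟨addH1map (globalLevels S) e.toAddMonoidHom he x.1,
    (addH1map_mem_Sha1_iff S e he x.1).2 x.2⟩
  invFun y := ⟨addH1map (globalLevels S) e.symm.toAddMonoidHom he.symm y.1, by
    have h := addH1map_mem_Sha1_iff S e he
      (addH1map (globalLevels S) e.symm.toAddMonoidHom he.symm y.1)
    have h2 := (addH1equiv (globalLevels S) e he).apply_symm_apply y.1
    simp only [addH1equiv_apply, addH1equiv_symm_apply] at h2
    rw [h2] at h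
    exact h.1 y.2⟩
  left_inv x := Subtype.ext ((addH1equiv (globalLevels S) e he).symm_apply_apply x.1)
  right_inv y := Subtype.ext ((addH1equiv (globalLevels S) e he).apply_symm_apply y.1)
  map_add' x y := Subtype.ext (map_add _ x.1 y.1)

@[simp] lemma coe_addSha₂Equiv (x : ↥(Sha₂ S A)) :
    ((addSha₂Equiv S e he x : ↥(Sha₂ S B)) : (globalLevels S).H2 B) =
      addH2map (globalLevels S) e.toAddMonoidHom he x.1 := rfl

@[simp] lemma coe_addSha1Equiv (x : ↥(Sha1 S A)) :
    ((addSha1Equiv S e he x : ↥(Sha1 S B)) : (globalLevels S).H1 B) =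
      addH1map (globalLevels S) e.toAddMonoidHom he x.1 := rfl

theorem card_Sha₂_eq : Nat.card ↥(Sha₂ S A) = Nat.card ↥(Sha₂ S B) :=
  Nat.card_congr (addSha₂Equiv S e he).toEquiv

theorem card_Sha1_eq : Nat.card ↥(Sha1 S A) = Nat.card ↥(Sha1 S B) :=
  Nat.card_congr (addSha1Equiv S e he).toEquiv

theorem finite_Sha₂_iff : Finite ↥(Sha₂ S A) ↔ Finite ↥(Sha₂ S B) :=
  (addSha₂Equiv S e he).toEquiv.finite_iff

theorem finite_Sha1_iff : Finite ↥(Sha1 S A) ↔ Finite ↥(Sha1 S B) :=
  (addSha1Equiv S e he).toEquiv.finite_iff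

end equiv

/-! ### `ZMod p`-coefficients: dimensions from cardinalities -/

section zmod

variable {p : ℕ} [Fact p.Prime]

/-- for `ZMod p`-coefficients, finiteness and dimension of a submodule of level cohomology are
read off from its cardinality -/
theorem finrank_eq_of_card_eq {V W : Type} [AddCommGroup V] [Module (ZMod p) V]
    [AddCommGroup W] [Module (ZMod p) W] [Finite V] (h : Nat.card V = Nat.card W) :
    Module.finrank (ZMod p) V = Module.finrank (ZMod p) W := by
  haveI : Finite W := by
    apply Nat.finite_of_card_ne_zero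
    rw [← h]
    exact Nat.card_pos.ne'
  have hV := Module.natCard_eq_pow_finrank (K := ZMod p) (V := V)
  have hW := Module.natCard_eq_pow_finrank (K := ZMod p) (V := W)
  rw [Nat.card_zmod] at hV hW
  rw [hV, hW] at h
  exact Nat.pow_right_injective (Fact.out : p.Prime).two_le h

end zmod

end Fermat.Agent.S55.LevelScalars13
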