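/-
[10i-LEVEL-SCALARS] (helper13): instances of the change of coefficient ring for `μ_p`:

* `𝔽_p(1)` (Prelude `ofChar (cycloChar p)`, `Contract34.mu p`, a `ZMod p`-representation) and
  `ESRep20.muRep p` (a `ℤ`-representation on `Additive (rootsOfUnity p ℚ̄)`, the kernel of the
  Kummer sequence `ESKummer20.kummer_shortExact`) have the same level cohomology and the same `Ш`;
* along any `r : H →* G_ℚ` killing the cyclotomic character (an open subgroup `U` whose fixed field
  contains `ζ_p`, a local Galois group of such a field, `ker (G_ℚ → G_ℚ/U)` …) the restriction of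
  `muRep p` is the TRIVIAL module `𝔽_p`: level cohomology of `Rep.trivial (ZMod p) H (ZMod p)`
  (the target of Shapiro, `ShapiroLevel32`) = level cohomology of `Rep.res r (muRep p)` (the
  source of the Kummer long exact sequence).
-/
import Fermat.Agent.S55.LevelScalars13.Sha
import Fermat.Agent.S55.ESKummer20
import Fermat.Agent.S55.Contract34

set_option autoImplicit false

open CategoryTheory groupCohomology ExtCitation
open Fermat.Agent.S55.Profin15 Fermat.Agent.S55.Profin15.LevelStr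
open Fermat.Agent.S55.ESDiv20 Fermat.Agent.S55.ESRep20 Fermat.Agent.S55.ESKummer20

namespace Fermat.Agent.S55.LevelScalars13

variable {p : ℕ} [Fact p.Prime]

/-- `𝔽_p(1) ≃+ μ_p(ℚ̄)`, `a ↦ ζ^a`, for a primitive `p`-th root of unity `ζ` -/
noncomputable def muAddEquiv (ζ : Qbˣ) (hζ : IsPrimitiveRoot ζ p) :
    (ofChar (k := ZMod p) (cycloChar p)) ≃+ muRep p :=
  AddEquiv.ofBijective (muHom ζ hζ.pow_eq_one) ⟨muHom_injective hζ, muHom_surjective hζ⟩

@[simp] lemma muAddEquiv_apply (ζ : Qbˣ) (hζ : IsPrimitiveRoot ζ p) (a : ZMod p) :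
    muAddEquiv ζ hζ a = muHom ζ hζ.pow_eq_one a := rfl

theorem muAddEquiv_equivariant (ζ : Qbˣ) (hζ : IsPrimitiveRoot ζ p) :
    IsAddEquivariant (muAddEquiv ζ hζ).toAddMonoidHom := fun σ a =>
  muHom_equivariant ζ hζ.pow_eq_one σ a

/-- the same for the contract's `mu p` -/
noncomputable def muAddEquiv' (ζ : Qbˣ) (hζ : IsPrimitiveRoot ζ p) :
    (Contract34.mu p) ≃+ muRep p := muAddEquiv ζ hζ

theorem muAddEquiv'_equivariant (ζ : Qbˣ) (hζ : IsPrimitiveRoot ζ p) :
    IsAddEquivariant (muAddEquiv' ζ hζ).toAddMonoidHom := fun σ a =>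
  muHom_equivariant ζ hζ.pow_eq_one σ a

section global

variable (S : Finset Nat.Primes) (ζ : Qbˣ) (hζ : IsPrimitiveRoot ζ p)

/-- `H¹(G_S, 𝔽_p(1)) ≃+ H¹(G_S, μ_p)` -/
noncomputable def muH1equiv :
    (globalLevels S).H1 (Contract34.mu p) ≃+ (globalLevels S).H1 (muRep p) :=
  addH1equiv (globalLevels S) (muAddEquiv' ζ hζ) (muAddEquiv'_equivariant ζ hζ)

/-- `H²(G_S, 𝔽_p(1)) ≃+ H²(G_S, μ_p)` -/
noncomputable def muH2equiv :
    (globalLevels S).H2 (Contract34.mu p) ≃+ (globalLevels S).H2 (muRep p) :=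
  addH2equiv (globalLevels S) (muAddEquiv' ζ hζ) (muAddEquiv'_equivariant ζ hζ)

/-- `Ш²(𝔽_p(1)) ≃+ Ш²(μ_p)` -/
noncomputable def muSha₂Equiv :
    ↥(Sha₂ S (Contract34.mu p)) ≃+ ↥(Sha₂ S (muRep p)) :=
  addSha₂Equiv S (muAddEquiv' ζ hζ) (muAddEquiv'_equivariant ζ hζ)

end global

section restricted

variable {H : Type} [Group H] (r : H →* GQ) (hr : ∀ h : H, cycloChar p (r h) = 1)
variable (ζ : Qbˣ) (hζ : IsPrimitiveRoot ζ p)

/-- along `r : H →* G_ℚ` killing the cyclotomic character, `μ_p` is the trivial module `𝔽_p` -/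
noncomputable def trivMuAddEquiv :
    (Rep.trivial (ZMod p) H (ZMod p)) ≃+ Rep.res r (muRep p) :=
  AddEquiv.ofBijective (muHom ζ hζ.pow_eq_one) ⟨muHom_injective hζ, muHom_surjective hζ⟩

@[simp] lemma trivMuAddEquiv_apply (a : ZMod p) :
    trivMuAddEquiv r ζ hζ a = muHom ζ hζ.pow_eq_one a := rfl

include hr in
theorem trivMuAddEquiv_equivariant :
    IsAddEquivariant (trivMuAddEquiv r ζ hζ).toAddMonoidHom := by
  intro h a
  have h1 := muHom_equivariant ζ hζ.pow_eq_one (r h) a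
  rw [hr h, Units.val_one, one_mul] at h1
  exact h1

variable (𝒱 : LevelStr H)

/-- `H¹(𝒱; 𝔽_p) ≃+ H¹(𝒱; μ_p)` when the cyclotomic character is trivial along `r` -/
noncomputable def trivMuH1equiv :
    𝒱.H1 (Rep.trivial (ZMod p) H (ZMod p)) ≃+ 𝒱.H1 (Rep.res r (muRep p)) :=
  addH1equiv 𝒱 (trivMuAddEquiv r ζ hζ) (trivMuAddEquiv_equivariant r hr ζ hζ)

/-- `H²(𝒱; 𝔽_p) ≃+ H²(𝒱; μ_p)` when the cyclotomic character is trivial along `r` -/
noncomputable def trivMuH2equiv :
    𝒱.H2 (Rep.trivial (ZMod p) H (ZMod p)) ≃+ 𝒱.H2 (Rep.res r (muRep p)) :=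
  addH2equiv 𝒱 (trivMuAddEquiv r ζ hζ) (trivMuAddEquiv_equivariant r hr ζ hζ)

/-- the same with the `ZMod p`-module `𝔽_p(1)` restricted along `r` on the right -/
noncomputable def trivMuAddEquivChar :
    (Rep.trivial (ZMod p) H (ZMod p)) ≃+ Rep.res r (Contract34.mu p) :=
  AddEquiv.refl (ZMod p)

include hr in
theorem trivMuAddEquivChar_equivariant :
    IsAddEquivariant (trivMuAddEquivChar (p := p) r).toAddMonoidHom := by
  intro h a
  show a = ((cycloChar p (r h) : (ZMod p)ˣ) : ZMod p) • a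
  rw [hr h, Units.val_one, one_smul]

end restricted

end Fermat.Agent.S55.LevelScalars13
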